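import Mathlib

/-!
# S48 / Cheb / Gal : `Gal(ℚ̄/ℚ) → (ℤ/n)ˣ` is surjective (elementary form)
-/

set_option autoImplicit false

namespace Fermat.Agent.S48.Cheb

variable {K : Type*} [Field K] [Algebra ℚ K] [IsAlgClosure ℚ K]

attribute [-instance] DivisionRing.toRatAlgebra

theorem Cyc_exists_primitiveRoot (n : ℕ) [NeZero n] : ∃ ζ : K, IsPrimitiveRoot ζ n := by
  have : IsAlgClosed K := IsAlgClosure.isAlgClosed ℚ
  have : CharZero K := charZero_of_injective_algebraMap (algebraMap ℚ K).injective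
  have : NeZero (n : K) := ⟨by exact_mod_cast NeZero.ne n⟩
  exact HasEnoughRootsOfUnity.exists_primitiveRoot K n

omit [IsAlgClosure ℚ K] in
theorem Cyc_minpoly_eq {n : ℕ} [NeZero n] {ζ : K} (hζ : IsPrimitiveRoot ζ n) :
    Polynomial.cyclotomic n ℚ = minpoly ℚ ζ := by
  refine minpoly.eq_of_irreducible_of_monic
    (Polynomial.cyclotomic.irreducible_rat (Nat.pos_of_ne_zero (NeZero.ne n))) ?_
    (Polynomial.cyclotomic.monic n ℚ)
  rw [Polynomial.aeval_def, Polynomial.eval₂_eq_eval_map, Polynomial.map_cyclotomic]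
  exact hζ.isRoot_cyclotomic (Nat.pos_of_ne_zero (NeZero.ne n))

theorem exists_aut_pow (n : ℕ) [NeZero n] (a : ℕ) (ha : a.Coprime n) :
    ∃ h : K ≃ₐ[ℚ] K, ∀ x : K, x ^ n = 1 → h x = x ^ a := by
  obtain ⟨ζ, hζ⟩ := Cyc_exists_primitiveRoot (K := K) n
  have hζa : IsPrimitiveRoot (ζ ^ a) n := hζ.pow_of_coprime a ha
  have hconj : IsConjRoot ℚ (ζ ^ a) ζ := (Cyc_minpoly_eq hζa).symm.trans (Cyc_minpoly_eq hζ)
  have : Normal ℚ K := IsAlgClosure.normal ℚ K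
  obtain ⟨h, hh⟩ := isConjRoot_iff_exists_algEquiv.1 hconj
  refine ⟨h, fun x hx => ?_⟩
  obtain ⟨i, -, rfl⟩ := hζ.eq_pow_of_pow_eq_one hx
  rw [map_pow, hh, ← pow_mul, ← pow_mul, mul_comm]

theorem exists_coprime_forall_pow (n : ℕ) [NeZero n] (g : K ≃ₐ[ℚ] K) :
    ∃ a : ℕ, a.Coprime n ∧ ∀ x : K, x ^ n = 1 → g x = x ^ a := by
  obtain ⟨ζ, hζ⟩ := Cyc_exists_primitiveRoot (K := K) n
  have hg : IsPrimitiveRoot (g ζ) n := hζ.map_of_injective g.injective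
  obtain ⟨a, -, ha, hga⟩ := hζ.isPrimitiveRoot_iff.1 hg
  refine ⟨a, ha, fun x hx => ?_⟩
  obtain ⟨i, -, rfl⟩ := hζ.eq_pow_of_pow_eq_one hx
  rw [map_pow, ← hga, ← pow_mul, ← pow_mul, mul_comm]

end Fermat.Agent.S48.Cheb
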