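import Mathlib
import Fermat.Agent.S48.Cheb.Gal.Cyc

/-!
# S48 / Cheb / Gal : the subgroup of `Gal(ℚ̄/ℚ)` fixing `μ_n`
-/

set_option autoImplicit false

namespace Fermat.Agent.S48.Cheb

variable {K : Type*} [Field K] [Algebra ℚ K] [IsAlgClosure ℚ K]

attribute [-instance] DivisionRing.toRatAlgebra

/-- the subgroup fixing `μ_n` -/
def fixMu (K : Type*) [Field K] [Algebra ℚ K] (n : ℕ) : Subgroup (K ≃ₐ[ℚ] K) where
  carrier := {g | ∀ x : K, x ^ n = 1 → g x = x}
  mul_mem' := by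
    intro a b ha hb x hx
    rw [AlgEquiv.mul_apply, hb x hx, ha x hx]
  one_mem' := fun x _ => rfl
  inv_mem' := by
    intro a ha x hx
    have h : a⁻¹ (a x) = x := by
      rw [← AlgEquiv.mul_apply, inv_mul_cancel, AlgEquiv.one_apply]
    rwa [ha x hx] at h

omit [IsAlgClosure ℚ K] in
theorem mem_fixMu {n : ℕ} {g : K ≃ₐ[ℚ] K} : g ∈ fixMu K n ↔ ∀ x : K, x ^ n = 1 → g x = x :=
  Iff.rfl

omit [IsAlgClosure ℚ K] in
theorem fixMu_normal (n : ℕ) : (fixMu K n).Normal := by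
  refine ⟨fun h hh g x hx => ?_⟩
  have h1 : (g⁻¹ x) ^ n = 1 := by rw [← map_pow, hx, map_one]
  rw [AlgEquiv.mul_apply, AlgEquiv.mul_apply, hh _ h1, ← AlgEquiv.mul_apply, mul_inv_cancel,
    AlgEquiv.one_apply]

omit [IsAlgClosure ℚ K] in
theorem fixMu_isOpen (n : ℕ) [NeZero n] : IsOpen (fixMu K n : Set (K ≃ₐ[ℚ] K)) := by
  classical
  set S : Set K := {x | x ^ n = 1} with hS
  have hfin : Finite S := by
    have : S = ↑(Polynomial.nthRootsFinset n (1 : K)) := by
      ext x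
      simp [hS, Polynomial.mem_nthRootsFinset (NeZero.pos n)]
    rw [this]
    exact (Finset.finite_toSet _).to_subtype
  have hint : ∀ x ∈ S, IsIntegral ℚ x := fun x hx =>
    IsIntegral.of_pow (NeZero.pos n) (by rw [show x ^ n = 1 from hx]; exact isIntegral_one)
  have := IntermediateField.finiteDimensional_adjoin hint
  refine Subgroup.isOpen_mono ?_
    (IntermediateField.fixingSubgroup_isOpen (IntermediateField.adjoin ℚ S))
  intro g hg x hx
  exact (IntermediateField.mem_fixingSubgroup_iff _ g).1 hg x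
    (IntermediateField.subset_adjoin ℚ S hx)

/-- `ℚ(μ_m) ∩ ℚ(μ_m') = ℚ` for coprime `m`, `m'`, in group form -/
theorem fixMu_sup_fixMu_eq_top (m m' : ℕ) [NeZero m] [NeZero m'] (h : m.Coprime m') :
    fixMu K m ⊔ fixMu K m' = ⊤ := by
  rw [eq_top_iff]
  intro g _
  obtain ⟨a, ha, hga⟩ := exists_coprime_forall_pow m g
  obtain ⟨b, hb1, hb2⟩ := Nat.chineseRemainder h a 1
  have hbm : b.Coprime m := by
    rw [Nat.Coprime, hb1.gcd_eq]
    exact ha
  have hbm' : b.Coprime m' := by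
    rw [Nat.Coprime, hb2.gcd_eq, Nat.gcd_one_left]
  have hb : b.Coprime (m * m') := Nat.Coprime.mul_right hbm hbm'
  have : NeZero (m * m') := ⟨mul_ne_zero (NeZero.ne m) (NeZero.ne m')⟩
  obtain ⟨h0, hh0⟩ := exists_aut_pow (K := K) (m * m') b hb
  have h1 : h0 ∈ fixMu K m' := by
    intro x hx
    rw [hh0 x (by rw [mul_comm, pow_mul, hx, one_pow]), pow_eq_pow_mod b hx,
      show b % m' = 1 % m' from hb2, ← pow_eq_pow_mod 1 hx, pow_one]
  have h2 : h0⁻¹ * g ∈ fixMu K m := by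
    intro x hx
    have h3 : h0 x = x ^ a := by
      rw [hh0 x (by rw [pow_mul, hx, one_pow]), pow_eq_pow_mod b hx,
        show b % m = a % m from hb1, ← pow_eq_pow_mod a hx]
    rw [AlgEquiv.mul_apply, hga x hx, ← h3, ← AlgEquiv.mul_apply, inv_mul_cancel,
      AlgEquiv.one_apply]
  have h4 : g = h0 * (h0⁻¹ * g) := by group
  rw [h4]
  exact Subgroup.mul_mem _ (Subgroup.mem_sup_right h1) (Subgroup.mem_sup_left h2)

end Fermat.Agent.S48.Cheb
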