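import Mathlib
import Fermat.Agent.S48.Cheb.Gal.FixMu

/-!
# S48 / Cheb / Gal : a prime `m ≡ 1 mod M` such that `ℚ(μ_m)` is linearly disjoint from the fixed field of `U`
-/

set_option autoImplicit false

namespace Fermat.Agent.S48.Cheb

variable {K : Type*} [Field K] [Algebra ℚ K] [IsAlgClosure ℚ K]

attribute [-instance] DivisionRing.toRatAlgebra

theorem finite_quotient_of_isOpen (U : Subgroup (K ≃ₐ[ℚ] K))
    (hUo : IsOpen (U : Set (K ≃ₐ[ℚ] K))) : Finite ((K ≃ₐ[ℚ] K) ⧸ U) := by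
  have : IsGalois ℚ K := inferInstance
  exact Subgroup.quotient_finite_of_isOpen U hUo

/-- pigeonhole on the finitely many subgroups containing `U` -/
theorem exists_prime_sup_fixMu_eq_top (U : Subgroup (K ≃ₐ[ℚ] K)) (hU : U.Normal)
    (hUo : IsOpen (U : Set (K ≃ₐ[ℚ] K))) (M : ℕ) (hM : 0 < M) :
    ∃ m : ℕ, m.Prime ∧ M ∣ m - 1 ∧ U ⊔ fixMu K m = ⊤ := by
  have hfin : Finite ((K ≃ₐ[ℚ] K) ⧸ U) := finite_quotient_of_isOpen U hUo
  have hT : {W : Subgroup (K ≃ₐ[ℚ] K) | U ≤ W}.Finite := by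
    refine Set.Finite.of_finite_image (f := fun W => W.map (QuotientGroup.mk' U))
      (Set.toFinite _) ?_
    intro W1 h1 W2 h2 h
    have e1 := Subgroup.comap_map_eq_self (f := QuotientGroup.mk' U) (H := W1)
      (by rw [QuotientGroup.ker_mk']; exact h1)
    have e2 := Subgroup.comap_map_eq_self (f := QuotientGroup.mk' U) (H := W2)
      (by rw [QuotientGroup.ker_mk']; exact h2)
    simp only at h
    rw [← e1, h, e2]
  obtain ⟨m, hm, m', hm', hne, heq⟩ :=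
    (Nat.infinite_setOfPred_prime_modEq_one hM.ne').exists_ne_map_eq_of_mapsTo
      (f := fun m => U ⊔ fixMu K m) (t := {W : Subgroup (K ≃ₐ[ℚ] K) | U ≤ W})
      (fun m _ => show U ≤ U ⊔ fixMu K m from le_sup_left) hT
  refine ⟨m, hm.1, (Nat.modEq_iff_dvd' hm.1.one_le).1 hm.2.symm, ?_⟩
  have : NeZero m := ⟨hm.1.ne_zero⟩
  have : NeZero m' := ⟨hm'.1.ne_zero⟩
  have htop := fixMu_sup_fixMu_eq_top (K := K) m m' ((Nat.coprime_primes hm.1 hm'.1).2 hne)
  rw [eq_top_iff, ← htop]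
  refine sup_le le_sup_right ?_
  rw [heq]
  exact le_sup_right

end Fermat.Agent.S48.Cheb
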