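import Mathlib
import Fermat.Agent.S48.Cheb.Gal.FixMu

/-!
# S48 / Cheb / Gal : the finite level `F = ℚ̄^{U ∩ fixMu m}`, with `Gal(F/ℚ) ≃ Gal(ℚ̄/ℚ)/U × (ℤ/m)ˣ`
-/

set_option autoImplicit false

namespace Fermat.Agent.S48.Cheb

variable {K : Type*} [Field K] [Algebra ℚ K] [IsAlgClosure ℚ K]

attribute [-instance] DivisionRing.toRatAlgebra

theorem Level_pow_val_one {M : Type*} [Monoid M] (m : ℕ) (x : M) (hx : x ^ m = 1) :
    x ^ ((1 : ZMod m).val) = x := by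
  rcases Nat.lt_or_ge 1 m with h | h
  · have : Fact (1 < m) := ⟨h⟩
    rw [ZMod.val_one, pow_one]
  · interval_cases m
    · simp [ZMod.val]
    · rw [pow_one] at hx
      rw [hx, one_pow]

omit [IsAlgClosure ℚ K] in
/-- the action on `μ_m` is given by the cyclotomic character of the finite level. -/
theorem Level_apply_eq_pow (F : IntermediateField ℚ K) [Normal ℚ F] (m : ℕ) [NeZero m] (ζ : F)
    (hζ : IsPrimitiveRoot ζ m) (g : K ≃ₐ[ℚ] K) (x : K) (hx : x ^ m = 1) :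
    g x = x ^ ((hζ.autToPow ℚ (AlgEquiv.restrictNormalHom F g) : (ZMod m)ˣ) : ZMod m).val := by
  have hζ0 : IsPrimitiveRoot (ζ : K) m := hζ.map_of_injective (f := algebraMap F K)
    (algebraMap F K).injective
  obtain ⟨i, -, rfl⟩ := hζ0.eq_pow_of_pow_eq_one hx
  have h1 : g (ζ : K) = ((AlgEquiv.restrictNormalHom F g ζ : F) : K) :=
    (AlgEquiv.restrictNormal_commutes g F ζ).symm
  rw [map_pow, h1, ← hζ.autToPow_spec ℚ (AlgEquiv.restrictNormalHom F g)]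
  push_cast
  rw [← pow_mul, ← pow_mul, mul_comm]

theorem exists_level (U : Subgroup (K ≃ₐ[ℚ] K)) [U.Normal]
    (hUo : IsOpen (U : Set (K ≃ₐ[ℚ] K))) (m : ℕ) [NeZero m] (htop : U ⊔ fixMu K m = ⊤) :
    ∃ (F : IntermediateField ℚ K) (_ : FiniteDimensional ℚ F) (_ : IsGalois ℚ F) (ζ : F)
      (hζ : IsPrimitiveRoot ζ m) (res : (F ≃ₐ[ℚ] F) →* ((K ≃ₐ[ℚ] K) ⧸ U)),
      (∀ g : K ≃ₐ[ℚ] K, res (AlgEquiv.restrictNormalHom F g) = (g : (K ≃ₐ[ℚ] K) ⧸ U)) ∧
      Function.Bijective fun g : F ≃ₐ[ℚ] F => (res g, hζ.autToPow ℚ g) := by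
  have hchar : CharZero K := algebraRat.charZero K
  have hclosedK : IsAlgClosed K := IsAlgClosure.isAlgClosed ℚ
  have hgalK : IsGalois ℚ K := IsAlgClosure.isGalois ℚ K
  have hnormMu : (fixMu K m).Normal := fixMu_normal m
  have hU'n : (U ⊓ fixMu K m).Normal := Subgroup.normal_inf_normal _ _
  have hU'o : IsOpen ((U ⊓ fixMu K m : Subgroup (K ≃ₐ[ℚ] K)) : Set (K ≃ₐ[ℚ] K)) := by
    rw [Subgroup.coe_inf]
    exact hUo.inter (fixMu_isOpen m)
  have hclosed : IsClosed ((U ⊓ fixMu K m : Subgroup (K ≃ₐ[ℚ] K)) : Set (K ≃ₐ[ℚ] K)) :=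
    Subgroup.isClosed_of_isOpen _ hU'o
  let F : IntermediateField ℚ K := IntermediateField.fixedField (U ⊓ fixMu K m)
  have hfix : F.fixingSubgroup = U ⊓ fixMu K m :=
    InfiniteGalois.fixingSubgroup_fixedField ⟨U ⊓ fixMu K m, hclosed⟩
  have hfin : FiniteDimensional ℚ F := by
    rw [← InfiniteGalois.isOpen_iff_finite, hfix]
    exact hU'o
  have hgal : IsGalois ℚ F := (InfiniteGalois.normal_iff_isGalois F).mp (hfix ▸ hU'n)
  have hsurj : Function.Surjective (AlgEquiv.restrictNormalHom (F := ℚ) (K₁ := K) F) :=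
    AlgEquiv.restrictNormalHom_surjective K
  have hker : (AlgEquiv.restrictNormalHom (F := ℚ) (K₁ := K) F).ker = U ⊓ fixMu K m := by
    rw [F.restrictNormalHom_ker, hfix]
  obtain ⟨ζ0, hζ0⟩ := HasEnoughRootsOfUnity.exists_primitiveRoot K m
  have hζ0F : ζ0 ∈ F := by
    rw [IntermediateField.mem_fixedField_iff]
    intro g hg
    exact hg.2 ζ0 hζ0.pow_eq_one
  have hζ : IsPrimitiveRoot (⟨ζ0, hζ0F⟩ : F) m :=
    IsPrimitiveRoot.of_map_of_injective (f := algebraMap F K) hζ0 (algebraMap F K).injective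
  let res : (F ≃ₐ[ℚ] F) →* ((K ≃ₐ[ℚ] K) ⧸ U) :=
    (AlgEquiv.restrictNormalHom (F := ℚ) (K₁ := K) F).liftOfSurjective hsurj
      ⟨QuotientGroup.mk' U, by
        rw [hker, QuotientGroup.ker_mk']
        exact inf_le_left⟩
  have hres : ∀ g : K ≃ₐ[ℚ] K, res (AlgEquiv.restrictNormalHom F g) = (g : (K ≃ₐ[ℚ] K) ⧸ U) := by
    intro g
    exact MonoidHom.liftOfRightInverse_comp_apply _ _ _ _ g
  refine ⟨F, hfin, hgal, ⟨ζ0, hζ0F⟩, hζ, res, hres, ?_, ?_⟩
  · -- injectivity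
    have hinj : Function.Injective (MonoidHom.prod res (hζ.autToPow ℚ)) := by
      rw [injective_iff_map_eq_one]
      intro φ hφ
      obtain ⟨g, rfl⟩ := hsurj φ
      rw [MonoidHom.prod_apply, Prod.mk_eq_one, hres] at hφ
      have hgU : g ∈ U := (QuotientGroup.eq_one_iff g).mp hφ.1
      have hgMu : g ∈ fixMu K m := by
        intro x hx
        rw [Level_apply_eq_pow F m _ hζ g x hx, hφ.2, Units.val_one]
        exact Level_pow_val_one m x hx
      have : g ∈ (AlgEquiv.restrictNormalHom (F := ℚ) (K₁ := K) F).ker := by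
        rw [hker]
        exact ⟨hgU, hgMu⟩
      exact this
    exact hinj
  · -- surjectivity
    rintro ⟨q, a⟩
    obtain ⟨g0, rfl⟩ := QuotientGroup.mk_surjective q
    obtain ⟨h, hh⟩ := exists_aut_pow (K := K) m (a : ZMod m).val (ZMod.val_coe_unit_coprime a)
    have hmem : g0⁻¹ * h ∈ U ⊔ fixMu K m := by
      rw [htop]
      exact Subgroup.mem_top _
    obtain ⟨u, hu, v, hv, huv⟩ := Subgroup.mem_sup_of_normal_right.mp hmem
    refine ⟨AlgEquiv.restrictNormalHom F (g0 * u), ?_⟩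
    have h1 : ((g0 * u : K ≃ₐ[ℚ] K) : (K ≃ₐ[ℚ] K) ⧸ U) = (g0 : (K ≃ₐ[ℚ] K) ⧸ U) := by
      rw [eq_comm, QuotientGroup.eq, inv_mul_cancel_left]
      exact hu
    have h2 : g0 * u = h * v⁻¹ := by
      rw [eq_mul_inv_iff_mul_eq, mul_assoc, huv, mul_inv_cancel_left]
    have h3 : (g0 * u) ζ0 = ζ0 ^ (a : ZMod m).val := by
      rw [h2, AlgEquiv.mul_apply, (inv_mem hv) ζ0 hζ0.pow_eq_one, hh ζ0 hζ0.pow_eq_one]
    have h4 : hζ.autToPow ℚ (AlgEquiv.restrictNormalHom F (g0 * u)) = a := by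
      rw [Level_apply_eq_pow F m _ hζ (g0 * u) ζ0 hζ0.pow_eq_one] at h3
      exact Units.ext (ZMod.val_injective m
        (hζ0.pow_inj (ZMod.val_lt _) (ZMod.val_lt _) h3))
    show (res (AlgEquiv.restrictNormalHom F (g0 * u)),
      hζ.autToPow ℚ (AlgEquiv.restrictNormalHom F (g0 * u))) = _
    rw [hres, h1, h4]

end Fermat.Agent.S48.Cheb
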