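import Mathlib
import Fermat.Agent.S48.Cheb.Core.Cross
import Fermat.Agent.S48.Cheb.Alg.Frob

/-!
# S48 / Cheb / Gal : the finite level statements for an arbitrary `ℚ`-algebra structure, in elementary terms
(same device as `GR.G.exists_forall_frob_zpowers_eq`: `obtain rfl : alg = DivisionRing.toRatAlgebra := Subsingleton.elim _ _`)
-/

set_option autoImplicit false

open scoped NumberField

namespace Fermat.Agent.S48.Cheb

open Classical

/-- elementary form of `IsFrob`, for any `ℚ`-algebra structure. -/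
def IsFrobE (L : Type*) [Field L] [NumberField L] [Algebra ℚ L] (P : Ideal (𝓞 L)) (p : ℕ)
    (φ : L ≃ₐ[ℚ] L) : Prop :=
  ∀ x : 𝓞 L, ∃ y ∈ P, (y : L) = φ x - (x : L) ^ p

theorem Finite_isFrobE_iff (L : Type*) [Field L] [NumberField L] (P : Ideal (𝓞 L)) (p : ℕ)
    (φ : L ≃ₐ[ℚ] L) : IsFrobE L P p φ ↔ IsFrob L P p φ := by
  constructor
  · intro hφ x
    obtain ⟨y, hy, hyx⟩ := hφ x
    have : φ • x - x ^ p = y := by
      apply NumberField.RingOfIntegers.ext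
      rw [hyx]
      rfl
    rw [this]
    exact hy
  · intro hφ x
    exact ⟨φ • x - x ^ p, hφ x, rfl⟩

theorem IsFrobE.unique (L : Type*) [Field L] [NumberField L] [alg : Algebra ℚ L] [IsGalois ℚ L]
    {p : ℕ} (hp : p.Prime) (hunr : ¬ (p : ℤ) ∣ NumberField.discr L)
    {P : Ideal (𝓞 L)} (hP : P.IsPrime) (hpP : (p : 𝓞 L) ∈ P) {φ φ' : L ≃ₐ[ℚ] L}
    (hφ : IsFrobE L P p φ) (hφ' : IsFrobE L P p φ') : φ = φ' := by
  obtain rfl : alg = DivisionRing.toRatAlgebra := Subsingleton.elim _ _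
  exact IsFrob.unique hp hunr hP hpP ((Finite_isFrobE_iff L P p φ).1 hφ)
    ((Finite_isFrobE_iff L P p φ').1 hφ')

theorem cross_alg (L : Type*) [Field L] [NumberField L] [alg : Algebra ℚ L] [IsGalois ℚ L]
    {m : ℕ} [NeZero m] {ζ : L} (hζ : IsPrimitiveRoot ζ m) (hm2 : 2 < m)
    {G : Type*} [Group G] [Finite G] (res : (L ≃ₐ[ℚ] L) →* G)
    (hbij : Function.Bijective fun g : L ≃ₐ[ℚ] L => (res g, hζ.autToPow ℚ g))
    (C : Set G) (hC : ∀ g ∈ C, g⁻¹ ∈ C) (S : Finset ℕ) :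
    ∃ B : ℝ, ∀ s : ℝ, 1 < s → s ≤ 2 →
      ((Nat.card C : ℝ) * (Nat.card (goodTau m (Nat.card G)) : ℝ) /
          ((Nat.card G : ℝ) * (m.totient : ℝ))) * Real.log (1 / (s - 1)) - B ≤
        ∑' p : ℕ, if p.Prime ∧ p ∉ S ∧ ¬ (p : ℤ) ∣ NumberField.discr L ∧
          ∃ (P : Ideal (𝓞 L)) (φ : L ≃ₐ[ℚ] L),
            P.IsPrime ∧ (p : 𝓞 L) ∈ P ∧ IsFrobE L P p φ ∧ res φ ∈ C then (p : ℝ) ^ (-s) else 0 := by
  obtain rfl : alg = DivisionRing.toRatAlgebra := Subsingleton.elim _ _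
  obtain ⟨B, hB⟩ := cross hζ hm2 res hbij C hC (S ∪ (NumberField.discr L).natAbs.primeFactors)
  refine ⟨B, fun s hs hs2 => (hB s hs hs2).trans ?_⟩
  have hsum : Summable fun p : ℕ => (p : ℝ) ^ (-s) := Real.summable_nat_rpow.2 (by linarith)
  refine Summable.tsum_le_tsum (fun p => ?_) (summable_frobTerm _ _ hs)
    (Summable.of_nonneg_of_le (fun p => ?_) (fun p => ?_) hsum)
  · unfold frobTerm
    split_ifs with h1 h2 h2
    · exact le_rfl
    · exfalso
      obtain ⟨hp, hpS, P, φ, hP, hpP, hφ, hC'⟩ := h1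
      rw [Finset.mem_union, not_or] at hpS
      refine h2 ⟨hp, hpS.1, fun hd => hpS.2 ?_, P, φ, hP, hpP, (Finite_isFrobE_iff L P p φ).2 hφ, hC'⟩
      rw [Nat.mem_primeFactors]
      exact ⟨hp, Int.natCast_dvd.1 hd, Int.natAbs_ne_zero.2 (NumberField.discr_ne_zero L)⟩
    · positivity
    · exact le_rfl
  · split_ifs
    · positivity
    · exact le_rfl
  · split_ifs
    · exact le_rfl
    · positivity

end Fermat.Agent.S48.Cheb
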