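import Mathlib
import Fermat.Prelude.Def_EllipticCurve_FrobeniusTrace
import Fermat.Prelude.Def_FLTPrelim_Ramification
import Fermat.Agent.Lib.Frobenius
import Fermat.Agent.GR.G.Main
import Fermat.Agent.S48.Cheb.Gal.Finite

/-!
# S48 / Cheb / Gal : a Frobenius at finite level is the restriction of a Frobenius element of `Gal(ℚ̄/ℚ)`
-/

set_option autoImplicit false

open scoped NumberField

namespace Fermat.Agent.S48.Cheb

open Fermat.Agent.Lib.Frobenius Fermat.Agent.GR.G

variable {K : Type*} [Field K] [Algebra ℚ K] [IsAlgClosure ℚ K]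

attribute [-instance] DivisionRing.toRatAlgebra

theorem exists_frobenius_restrict_eq [CharZero K]
    (F : IntermediateField ℚ K) [NumberField F] [IsGalois ℚ F]
    (p : ℕ) (hp : p.Prime) (hunr : ¬ (p : ℤ) ∣ NumberField.discr F)
    (P : Ideal (𝓞 F)) (hP : P.IsPrime) (hpP : (p : 𝓞 F) ∈ P) (φ : F ≃ₐ[ℚ] F)
    (hφ : IsFrobE F P p φ) :
    ∃ (A : ValuationSubring K) (τ : K ≃ₐ[ℚ] K),
      A.LiesOverPrime p ∧ A.IsFrobeniusAt τ p ∧ AlgEquiv.restrictNormalHom F τ = φ := by
  obtain ⟨A, hA⟩ := exists_valuationSubring_over F P hP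
  have hAp : A.LiesOverPrime p := by
    have := hA _ hpP
    unfold ValuationSubring.LiesOverPrime
    simpa using this
  obtain ⟨τ, hτ⟩ := exists_isFrobeniusAt_of_liesOver A hp hAp
  refine ⟨A, τ, hAp, hτ, ?_⟩
  refine IsFrobE.unique F hp hunr hP hpP (fun x => ?_) hφ
  -- the element `y = φ x - x ^ p` of `𝓞 F`
  have hxi : IsIntegral ℤ ((x : F)) := NumberField.RingOfIntegers.isIntegral_coe x
  have hyi : IsIntegral ℤ (AlgEquiv.restrictNormalHom F τ (x : F) - (x : F) ^ p) :=
    (hxi.map ((AlgEquiv.restrictNormalHom F τ).toAlgHom.restrictScalars ℤ)).sub (hxi.pow p)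
  refine ⟨⟨_, hyi⟩, ?_, rfl⟩
  set y : 𝓞 F := ⟨_, hyi⟩ with hy
  -- its image in `K` is a non-unit of `A`
  have hxA : (((x : F) : K)) ∈ A :=
    isIntegral_mem A (hxi.map (IsScalarTower.toAlgHom ℤ F K))
  have hyK : (((y : F)) : K) = τ ((x : F) : K) - ((x : F) : K) ^ p := by
    have h2 := AlgEquiv.restrictNormal_commutes τ F (x : F)
    show ((AlgEquiv.restrictNormalHom F τ (x : F) - (x : F) ^ p : F) : K) = _
    push_cast
    exact congrArg (· - ((x : F) : K) ^ p) h2
  have hyA : (((y : F)) : K) ∈ A.nonunits := by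
    obtain ⟨hdec, hfrob⟩ := hτ
    have h1 := hfrob (IsLocalRing.residue A ⟨_, hxA⟩)
    rw [← IsLocalRing.ResidueField.residue_smul, ← map_pow, ← sub_eq_zero, ← map_sub,
      IsLocalRing.residue_eq_zero_iff] at h1
    rw [hyK, ValuationSubring.mem_nonunits_iff_exists_mem_maximalIdeal]
    exact ⟨_, h1⟩
  by_contra hyP
  have hP0 : P ≠ ⊥ := by
    intro h
    rw [h, Ideal.mem_bot] at hpP
    exact hp.ne_zero (by exact_mod_cast hpP)
  have hmax : P.IsMaximal := hP.isMaximal hP0
  obtain ⟨z, w, hw, hz⟩ := hmax.exists_inv hyP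
  have hzA : (((z : F)) : K) ∈ A :=
    isIntegral_mem A ((NumberField.RingOfIntegers.isIntegral_coe z).map
      (IsScalarTower.toAlgHom ℤ F K))
  have h1 : (1 : K) ∈ A.nonunits := by
    have h2 : (1 : K) = (((y : F)) : K) * (((z : F)) : K) + (((w : F)) : K) := by
      have := congrArg (fun t : 𝓞 F => (((t : F)) : K)) hz
      simp only [map_add, map_mul, map_one] at this
      push_cast at this
      rw [← this]
      ring
    rw [h2]
    exact nonunits_add A (nonunits_mul A hyA hzA) (hA w hw)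
  rw [ValuationSubring.mem_nonunits_iff, map_one] at h1
  exact lt_irrefl _ h1

end Fermat.Agent.S48.Cheb
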