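import Mathlib
import Fermat.Agent.S48.Cheb.Count
import Fermat.Agent.S48.Cheb.Gal.Lift
import Fermat.Agent.S48.Cheb.Gal.Disj
import Fermat.Agent.S48.Cheb.Gal.Level

/-!
# S48 / Cheb : Chebotarev's density theorem for `Gal(ℚ̄/ℚ)` (lower Dirichlet density, sets stable under inversion)
-/

set_option autoImplicit false

open scoped NumberField

namespace Fermat.Agent.S48.Cheb

open Classical

/-- general term of the sum over the primes `p ∉ S` having a Frobenius element in `C`. -/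
noncomputable def chebTerm {K : Type*} [Field K] [Algebra ℚ K] (S : Finset ℕ)
    (C : Set (K ≃ₐ[ℚ] K)) (s : ℝ) (p : ℕ) : ℝ :=
  if p.Prime ∧ p ∉ S ∧ ∃ (A : ValuationSubring K) (τ : K ≃ₐ[ℚ] K),
      A.LiesOverPrime p ∧ A.IsFrobeniusAt τ p ∧ τ ∈ C then (p : ℝ) ^ (-s) else 0

theorem summable_chebTerm {K : Type*} [Field K] [Algebra ℚ K] (S : Finset ℕ)
    (C : Set (K ≃ₐ[ℚ] K)) {s : ℝ} (hs : 1 < s) : Summable (chebTerm S C s) := by
  have h : Summable fun p : ℕ => (p : ℝ) ^ (-s) := Real.summable_nat_rpow.mpr (by linarith)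
  refine Summable.of_nonneg_of_le (fun p => ?_) (fun p => ?_) h
  · unfold chebTerm
    split_ifs
    · exact Real.rpow_nonneg (Nat.cast_nonneg _) _
    · exact le_rfl
  · unfold chebTerm
    split_ifs
    · exact le_rfl
    · exact Real.rpow_nonneg (Nat.cast_nonneg _) _

/-- the numerical inequality -/
theorem ratio_ge (c n g m k : ℕ) (δ : ℝ) (hn : 0 < n) (hm : 1 < m) (hc : c ≤ n)
    (hk : (n : ℝ) / 2 ^ k ≤ δ)
    (hg : ((m - 1 : ℕ) : ℝ) * (1 - (n : ℝ) / 2 ^ k) ≤ (g : ℝ)) :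
    (c : ℝ) / (n : ℝ) - δ ≤ (c : ℝ) * (g : ℝ) / ((n : ℝ) * ((m - 1 : ℕ) : ℝ)) := by
  have hn' : (0 : ℝ) < n := by exact_mod_cast hn
  have hm' : (0 : ℝ) < ((m - 1 : ℕ) : ℝ) := by
    have : 0 < m - 1 := by omega
    exact_mod_cast this
  have hc' : (c : ℝ) ≤ n := by exact_mod_cast hc
  have hc0 : (0 : ℝ) ≤ c := Nat.cast_nonneg _
  set e : ℝ := (n : ℝ) / 2 ^ k with he
  have he0 : 0 ≤ e := by positivity
  have h1 : (c : ℝ) / n ≤ 1 := (div_le_one hn').mpr hc'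
  have h0 : 0 ≤ (c : ℝ) / n := by positivity
  have h2 : (c : ℝ) / n * (1 - e) ≤ (c : ℝ) * (g : ℝ) / ((n : ℝ) * ((m - 1 : ℕ) : ℝ)) := by
    rw [div_mul_eq_mul_div, div_le_div_iff₀ hn' (by positivity)]
    have := mul_le_mul_of_nonneg_left hg (mul_nonneg hc0 hn'.le)
    nlinarith [this]
  have h3 : (c : ℝ) / n * e ≤ δ := by
    calc (c : ℝ) / n * e ≤ 1 * e := mul_le_mul_of_nonneg_right h1 he0
      _ = e := one_mul e
      _ ≤ δ := hk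
  nlinarith [h2, h3]

section
variable {K : Type*} [Field K] [Algebra ℚ K] [IsAlgClosure ℚ K]

attribute [-instance] DivisionRing.toRatAlgebra

theorem chebotarev_aux [CharZero K]
    (U : Subgroup (K ≃ₐ[ℚ] K)) [hU : U.Normal] (hUo : IsOpen (U : Set (K ≃ₐ[ℚ] K)))
    (C : Set (K ≃ₐ[ℚ] K)) (hCU : ∀ g ∈ C, ∀ u ∈ U, g * u ∈ C) (hCinv : ∀ g ∈ C, g⁻¹ ∈ C)
    (S : Finset ℕ) (δ : ℝ) (hδ : 0 < δ) :
    ∃ B : ℝ, ∀ s : ℝ, 1 < s → s ≤ 2 →
      ((Nat.card ((fun g : K ≃ₐ[ℚ] K => (g : (K ≃ₐ[ℚ] K) ⧸ U)) '' C) : ℝ) /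
          (Nat.card ((K ≃ₐ[ℚ] K) ⧸ U) : ℝ) - δ) * Real.log (1 / (s - 1)) - B ≤
        ∑' p : ℕ, chebTerm S C s p := by
  have hfin : Finite ((K ≃ₐ[ℚ] K) ⧸ U) := finite_quotient_of_isOpen U hUo
  set n₀ := Nat.card ((K ≃ₐ[ℚ] K) ⧸ U) with hn₀
  have hn₀pos : 0 < n₀ := Nat.card_pos
  obtain ⟨k, hk⟩ : ∃ k : ℕ, (n₀ : ℝ) / 2 ^ k ≤ δ := by
    obtain ⟨k, hk⟩ := pow_unbounded_of_one_lt ((n₀ : ℝ) / δ) (by norm_num : (1 : ℝ) < 2)
    refine ⟨k, ?_⟩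
    rw [div_le_iff₀ (by positivity)]
    rw [div_lt_iff₀ hδ] at hk
    linarith
  obtain ⟨m, hmp, hmM, htop⟩ := exists_prime_sup_fixMu_eq_top U hU hUo (2 * n₀ ^ k) (by positivity)
  have hm2 : 2 < m := by
    have h2 : 2 ∣ m - 1 := Dvd.dvd.trans (Dvd.intro _ rfl) hmM
    have h1 := hmp.two_le
    have h3 : 0 < m - 1 := by omega
    have := Nat.le_of_dvd h3 h2
    omega
  have : NeZero m := ⟨hmp.ne_zero⟩
  have : Fact m.Prime := ⟨hmp⟩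
  obtain ⟨F, hfd, hgal, ζ, hζ, res, hres, hbij⟩ := exists_level U hUo m htop
  have hnf : NumberField F :=
    { to_charZero := inferInstance
      to_finiteDimensional := by
        have e : (DivisionRing.toRatAlgebra : Algebra ℚ F) = F.algebra' := Subsingleton.elim _ _
        rw [e]
        exact hfd }
  set C' : Set ((K ≃ₐ[ℚ] K) ⧸ U) := (fun g : K ≃ₐ[ℚ] K => (g : (K ≃ₐ[ℚ] K) ⧸ U)) '' C with hC'
  have hC'inv : ∀ g ∈ C', g⁻¹ ∈ C' := by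
    rintro _ ⟨g, hg, rfl⟩
    exact ⟨g⁻¹, hCinv g hg, rfl⟩
  obtain ⟨B, hB⟩ := cross_alg F hζ hm2 res hbij C' hC'inv S
  refine ⟨B, fun s hs hs2 => ?_⟩
  have hlog : 0 ≤ Real.log (1 / (s - 1)) := by
    apply Real.log_nonneg
    rw [le_div_iff₀ (by linarith)]
    linarith
  have hratio := ratio_ge (Nat.card C') n₀ (Nat.card (goodTau m n₀)) m k δ hn₀pos hmp.one_lt
    (by
      have := Nat.card_le_card_of_injective (Subtype.val : C' → (K ≃ₐ[ℚ] K) ⧸ U)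
        Subtype.val_injective
      exact this) hk (le_card_goodTau m n₀ k hn₀pos hmM)
  have htot : m.totient = m - 1 := Nat.totient_prime hmp
  have h1 := hB s hs hs2
  rw [htot] at h1
  have h2 : (∑' p : ℕ, if p.Prime ∧ p ∉ S ∧ ¬ (p : ℤ) ∣ NumberField.discr F ∧
          ∃ (P : Ideal (𝓞 F)) (φ : F ≃ₐ[ℚ] F),
            P.IsPrime ∧ (p : 𝓞 F) ∈ P ∧ IsFrobE F P p φ ∧ res φ ∈ C' then (p : ℝ) ^ (-s) else 0) ≤
      ∑' p : ℕ, chebTerm S C s p := by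
    have hpt : ∀ p : ℕ, (if p.Prime ∧ p ∉ S ∧ ¬ (p : ℤ) ∣ NumberField.discr F ∧
          ∃ (P : Ideal (𝓞 F)) (φ : F ≃ₐ[ℚ] F),
            P.IsPrime ∧ (p : 𝓞 F) ∈ P ∧ IsFrobE F P p φ ∧ res φ ∈ C' then (p : ℝ) ^ (-s) else 0) ≤
        chebTerm S C s p := by
      intro p
      have hnn : (0 : ℝ) ≤ (p : ℝ) ^ (-s) := Real.rpow_nonneg (Nat.cast_nonneg _) _
      unfold chebTerm
      split_ifs with h h' h'
      · exact le_rfl
      · exfalso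
        apply h'
        obtain ⟨hp, hpS, hunr, P, φ, hP, hpP, hφ, hφC⟩ := h
        obtain ⟨A, τ, hA, hτ, hτφ⟩ := exists_frobenius_restrict_eq F p hp hunr P hP hpP φ hφ
        refine ⟨hp, hpS, A, τ, hA, hτ, ?_⟩
        rw [← hτφ, hres] at hφC
        obtain ⟨g, hg, hgτ⟩ := hφC
        have hu : g⁻¹ * τ ∈ U := QuotientGroup.eq.mp hgτ
        have := hCU g hg _ hu
        rwa [mul_inv_cancel_left] at this
      · exact hnn
      · exact le_rfl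
    refine Summable.tsum_le_tsum hpt ?_ (summable_chebTerm S C hs)
    refine Summable.of_nonneg_of_le (fun p => ?_) hpt (summable_chebTerm S C hs)
    split_ifs
    · exact Real.rpow_nonneg (Nat.cast_nonneg _) _
    · exact le_rfl
  have h3 := mul_le_mul_of_nonneg_right hratio hlog
  linarith

end

theorem chebotarev_alg [alg : Algebra ℚ (AlgebraicClosure ℚ)]
    (U : Subgroup (AlgebraicClosure ℚ ≃ₐ[ℚ] AlgebraicClosure ℚ)) [hU : U.Normal]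
    (hUo : IsOpen (U : Set (AlgebraicClosure ℚ ≃ₐ[ℚ] AlgebraicClosure ℚ)))
    (C : Set (AlgebraicClosure ℚ ≃ₐ[ℚ] AlgebraicClosure ℚ))
    (hCU : ∀ g ∈ C, ∀ u ∈ U, g * u ∈ C) (hCinv : ∀ g ∈ C, g⁻¹ ∈ C)
    (S : Finset ℕ) (δ : ℝ) (hδ : 0 < δ) :
    ∃ B : ℝ, ∀ s : ℝ, 1 < s → s ≤ 2 →
      ((Nat.card ((fun g : AlgebraicClosure ℚ ≃ₐ[ℚ] AlgebraicClosure ℚ =>
          (g : (AlgebraicClosure ℚ ≃ₐ[ℚ] AlgebraicClosure ℚ) ⧸ U)) '' C) : ℝ) /
          (Nat.card ((AlgebraicClosure ℚ ≃ₐ[ℚ] AlgebraicClosure ℚ) ⧸ U) : ℝ) - δ) *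
            Real.log (1 / (s - 1)) - B ≤
        ∑' p : ℕ, chebTerm S C s p := by
  obtain rfl : alg = AlgebraicClosure.instAlgebra ℚ := Subsingleton.elim _ _
  exact @chebotarev_aux (AlgebraicClosure ℚ) _ (AlgebraicClosure.instAlgebra ℚ)
    inferInstance _ U hU hUo C hCU hCinv S δ hδ

/-- **Chebotarev's density theorem** (lower Dirichlet density; `C` a union of cosets of the open normal subgroup `U`, stable under
inversion): the primes `p ∉ S` having a Frobenius element in `C` have lower Dirichlet density `≥ |C/U| / |G/U|`. -/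
theorem chebotarev
    (U : Subgroup (AlgebraicClosure ℚ ≃ₐ[ℚ] AlgebraicClosure ℚ)) [U.Normal]
    (hUo : IsOpen (U : Set (AlgebraicClosure ℚ ≃ₐ[ℚ] AlgebraicClosure ℚ)))
    (C : Set (AlgebraicClosure ℚ ≃ₐ[ℚ] AlgebraicClosure ℚ))
    (hCU : ∀ g ∈ C, ∀ u ∈ U, g * u ∈ C) (hCinv : ∀ g ∈ C, g⁻¹ ∈ C)
    (S : Finset ℕ) (δ : ℝ) (hδ : 0 < δ) :
    ∃ B : ℝ, ∀ s : ℝ, 1 < s → s ≤ 2 →
      ((Nat.card ((fun g : AlgebraicClosure ℚ ≃ₐ[ℚ] AlgebraicClosure ℚ =>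
          (g : (AlgebraicClosure ℚ ≃ₐ[ℚ] AlgebraicClosure ℚ) ⧸ U)) '' C) : ℝ) /
          (Nat.card ((AlgebraicClosure ℚ ≃ₐ[ℚ] AlgebraicClosure ℚ) ⧸ U) : ℝ) - δ) *
            Real.log (1 / (s - 1)) - B ≤
        ∑' p : ℕ, chebTerm S C s p :=
  chebotarev_alg U hUo C hCU hCinv S δ hδ

end Fermat.Agent.S48.Cheb
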