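import Fermat.Agent.S48.Iface
import Fermat.Agent.S48.Cheb.Gal.Main

/-!
# S48 / Cheb / Gal : adapter from `Cheb.chebotarev` to the interface statement `S48.ChebStatement`
-/

set_option autoImplicit false

namespace Fermat.Agent.S48.Cheb

open Classical

theorem Export_isOpen_ker {G : Type} [Group G] (r : Fermat.Agent.S48.GQ →* G)
    (hfin : GaloisFactorsThroughFiniteLevel r) :
    IsOpen (r.ker : Set Fermat.Agent.S48.GQ) := by
  obtain ⟨L, hL, h⟩ := hfin
  have hle : L.fixingSubgroup ≤ r.ker := by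
    intro σ hσ
    rw [MonoidHom.mem_ker]
    apply h σ
    intro x hx
    exact (IntermediateField.mem_fixingSubgroup_iff L σ).mp hσ x hx
  exact Subgroup.isOpen_mono hle (IntermediateField.fixingSubgroup_isOpen L)

theorem Export_card_quot {G : Type} [Group G] (r : Fermat.Agent.S48.GQ →* G)
    (hsurj : Function.Surjective r) :
    Nat.card (Fermat.Agent.S48.GQ ⧸ r.ker) = Nat.card G :=
  Nat.card_congr (QuotientGroup.quotientKerEquivOfSurjective r hsurj).toEquiv

theorem Export_card_image {G : Type} [Group G] (r : Fermat.Agent.S48.GQ →* G)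
    (hsurj : Function.Surjective r) (T : Set G) :
    Nat.card ((fun g : Fermat.Agent.S48.GQ => (g : Fermat.Agent.S48.GQ ⧸ r.ker)) '' (r ⁻¹' T)) =
      Nat.card T := by
  have h1 : (QuotientGroup.quotientKerEquivOfSurjective r hsurj) ''
      ((fun g : Fermat.Agent.S48.GQ => (g : Fermat.Agent.S48.GQ ⧸ r.ker)) '' (r ⁻¹' T)) = T := by
    rw [Set.image_image]
    exact Set.image_preimage_eq T hsurj
  conv_rhs => rw [← h1]
  exact (Nat.card_image_of_injective
    (QuotientGroup.quotientKerEquivOfSurjective r hsurj).injective _).symm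

/-- a finite partial sum of a summable series is within `1` of the sum. -/
theorem Export_exists_finset {f : ℕ → ℝ} (hf : Summable f) :
    ∃ F : Finset ℕ, ∑' p, f p - 1 ≤ ∑ p ∈ F, f p := by
  by_contra hcon
  push Not at hcon
  have h1 : ∑' p, f p ≤ ∑' p, f p - 1 := hf.tsum_le_of_sum_le fun F => (hcon F).le
  linarith

theorem chebStatement : Fermat.Agent.S48.ChebStatement := by
  intro G _ _ r hfin hsurj T hTconj hTinv S δ hδ
  have hUo := Export_isOpen_ker r hfin
  obtain ⟨B, hB⟩ := chebotarev r.ker hUo (r ⁻¹' T)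
    (by
      intro g hg u hu
      show r (g * u) ∈ T
      rw [map_mul, MonoidHom.mem_ker.mp hu, mul_one]
      exact hg)
    (by
      intro g hg
      show r g⁻¹ ∈ T
      rw [map_inv]
      exact hTinv _ hg) S δ hδ
  rw [Export_card_quot r hsurj, Export_card_image r hsurj T] at hB
  refine ⟨B + 1, fun s hs hs2 => ?_⟩
  obtain ⟨F0, hF0⟩ := Export_exists_finset (summable_chebTerm S (r ⁻¹' T) hs)
  refine ⟨F0.filter fun p => p.Prime ∧ p ∉ S ∧ ∃ (A : ValuationSubring Fermat.Agent.S48.Qb)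
    (τ : Fermat.Agent.S48.GQ), A.LiesOverPrime p ∧ A.IsFrobeniusAt τ p ∧ τ ∈ r ⁻¹' T, ?_, ?_⟩
  · intro p hp
    obtain ⟨-, hp1, hp2, A, τ, hA, hτ, hτT⟩ := Finset.mem_filter.mp hp
    exact ⟨hp1, hp2, A, τ, hA, hτ, hτT⟩
  · rw [Finset.sum_filter]
    have h1 := hB s hs hs2
    have h2 : ∑ p ∈ F0, chebTerm S (r ⁻¹' T) s p = ∑ p ∈ F0,
        if p.Prime ∧ p ∉ S ∧ ∃ (A : ValuationSubring Fermat.Agent.S48.Qb)
          (τ : Fermat.Agent.S48.GQ), A.LiesOverPrime p ∧ A.IsFrobeniusAt τ p ∧ τ ∈ r ⁻¹' T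
        then (p : ℝ) ^ (-s) else 0 := rfl
    rw [← h2]
    linarith

end Fermat.Agent.S48.Cheb
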